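import Mathlib
import Fermat.Agent.LT.T6.Spec

/-!
# Row LT, tower T6: UNRAMIFIED CORE, part 1 (residue fields) -- helper220, OFF-MAIN

Tool for the owners of the fundamental-lemma leaves T6.12 - T6.15, in the vocabulary of
`T6/Spec.lean` (`IsLocalField`, `IsLocalExt ... l 1 i s`, `l` prime).  Mathlib + Spec only.

* `resIntMk220`, `residue_eq_iff220`, `card_residue220`;
* `sRes220` (the automorphism of the residue field of `k'` induced by `s`),
  `iRes220` (the embedding of residue fields induced by `i`);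
* `resFix_res220`: the fixed field of `sRes220` is the image of `iRes220`;
* `sRes_pow_ne_one220`: `sRes220` has exact order `l`;
* `exists_resSum_ne_zero220`: Dedekind independence of the powers of `sRes220`.
-/

set_option autoImplicit false

open scoped Valued
open Fermat.Agent.LT.T6

noncomputable section

namespace Fermat.Agent.LT.T6.H220

section Basic

variable {K : Type} [Field K] [Valued K Γ₀]

theorem mem_max_iff220 (x : 𝒪[K]) : x ∈ 𝓂[K] ↔ Valued.v (x : K) < 1 := by
  rw [Valued.maximalIdeal, IsLocalRing.mem_maximalIdeal, mem_nonunits_iff]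
  exact Valuation.Integer.not_isUnit_iff_valuation_lt_one

theorem residue_eq_zero_iff220 (x : 𝒪[K]) :
    IsLocalRing.residue 𝒪[K] x = 0 ↔ Valued.v (x : K) < 1 := by
  rw [IsLocalRing.residue_eq_zero_iff]
  exact mem_max_iff220 x

theorem residue_eq_iff220 (x y : 𝒪[K]) :
    IsLocalRing.residue 𝒪[K] x = IsLocalRing.residue 𝒪[K] y ↔
      Valued.v ((x : K) - (y : K)) < 1 := by
  rw [← sub_eq_zero, ← map_sub, residue_eq_zero_iff220]
  rfl

/-- An element of valuation `≤ 1` as an element of the ring of integers. -/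
def intMk220 (x : K) (hx : Valued.v x ≤ 1) : 𝒪[K] :=
  ⟨x, (Valuation.mem_integer_iff _ _).2 hx⟩

@[simp] theorem coe_intMk220 (x : K) (hx : Valued.v x ≤ 1) : ((intMk220 x hx : 𝒪[K]) : K) = x :=
  rfl

theorem int_val_le220 (x : 𝒪[K]) : Valued.v (x : K) ≤ 1 :=
  (Valuation.mem_integer_iff _ _).1 x.2

theorem residue_ne_zero_iff220 (x : 𝒪[K]) :
    IsLocalRing.residue 𝒪[K] x ≠ 0 ↔ Valued.v (x : K) = 1 := by
  rw [Ne, residue_eq_zero_iff220, not_lt]
  exact ⟨fun h => le_antisymm (int_val_le220 x) h, fun h => h.ge⟩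

theorem card_residue220 {q : ℕ} (h : IsLocalField K q) : Nat.card 𝓀[K] = q := by
  obtain ⟨T, hcard, hint, hsep, hcov⟩ := h.residue
  let f : T → 𝓀[K] := fun t => IsLocalRing.residue 𝒪[K] (intMk220 t.1 (hint t.1 t.2))
  have hinj : Function.Injective f := by
    intro a b hab
    have h1 := (residue_eq_iff220 _ _).1 hab
    simp only [coe_intMk220] at h1
    by_contra hne
    have hne' : (a : K) ≠ b := fun e => hne (Subtype.ext e)
    have := hsep a.1 a.2 b.1 b.2 hne'
    rw [this] at h1
    exact lt_irrefl _ h1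
  have hsurj : Function.Surjective f := by
    intro y
    obtain ⟨z, rfl⟩ := IsLocalRing.residue_surjective (R := 𝒪[K]) y
    obtain ⟨x, hx, hzx⟩ := hcov z (int_val_le220 z)
    exact ⟨⟨x, hx⟩, ((residue_eq_iff220 _ _).2 (by simpa using hzx)).symm⟩
  rw [← Nat.card_eq_of_bijective f ⟨hinj, hsurj⟩]
  simp [hcard]

theorem finite_residue220 {q : ℕ} (h : IsLocalField K q) : Finite 𝓀[K] := by
  obtain ⟨T, hcard, hint, hsep, hcov⟩ := h.residue
  let f : T → 𝓀[K] := fun t => IsLocalRing.residue 𝒪[K] (intMk220 t.1 (hint t.1 t.2))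
  have hsurj : Function.Surjective f := by
    intro y
    obtain ⟨z, rfl⟩ := IsLocalRing.residue_surjective (R := 𝒪[K]) y
    obtain ⟨x, hx, hzx⟩ := hcov z (int_val_le220 z)
    exact ⟨⟨x, hx⟩, ((residue_eq_iff220 _ _).2 (by simpa using hzx)).symm⟩
  exact Finite.of_surjective f hsurj

theorem two_le_q220 {q : ℕ} (h : IsLocalField K q) : 2 ≤ q := by
  have := finite_residue220 h
  rw [← card_residue220 h]
  exact Finite.one_lt_card (α := 𝓀[K])

end Basic

section Maps

variable {k k' : Type} [Field k] [Field k'] [Valued k Γ₀] [Valued k' Γ₀]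

/-- The restriction of a valuation preserving automorphism to the ring of integers. -/
def sInt220 (s : k' ≃+* k') (hs : ∀ y : k', Valued.v (s y) = Valued.v y) : 𝒪[k'] ≃+* 𝒪[k'] where
  toFun x := intMk220 (s x) (by rw [hs]; exact int_val_le220 x)
  invFun x := intMk220 (s.symm x) (by
    have := hs (s.symm x); rw [s.apply_symm_apply] at this; rw [← this]; exact int_val_le220 x)
  left_inv x := by ext; simp
  right_inv x := by ext; simp
  map_mul' x y := by ext; simp
  map_add' x y := by ext; simp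

@[simp] theorem coe_sInt220 (s : k' ≃+* k') (hs : ∀ y : k', Valued.v (s y) = Valued.v y)
    (x : 𝒪[k']) : ((sInt220 s hs x : 𝒪[k']) : k') = s x := rfl

/-- The automorphism of the residue field induced by `s`. -/
def sRes220 (s : k' ≃+* k') (hs : ∀ y : k', Valued.v (s y) = Valued.v y) : 𝓀[k'] ≃+* 𝓀[k'] :=
  IsLocalRing.ResidueField.mapEquiv (sInt220 s hs)

theorem sRes_residue220 (s : k' ≃+* k') (hs : ∀ y : k', Valued.v (s y) = Valued.v y)
    (x : 𝒪[k']) :
    sRes220 s hs (IsLocalRing.residue 𝒪[k'] x) = IsLocalRing.residue 𝒪[k'] (sInt220 s hs x) :=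
  rfl

theorem val_pow_s220 (s : k' ≃+* k') (hs : ∀ y : k', Valued.v (s y) = Valued.v y) (j : ℕ)
    (y : k') : Valued.v ((s ^ j) y) = Valued.v y := by
  induction j with
  | zero => simp
  | succ n ih => rw [pow_succ', RingAut.mul_apply, hs, ih]

theorem sRes_pow_residue220 (s : k' ≃+* k') (hs : ∀ y : k', Valued.v (s y) = Valued.v y)
    (j : ℕ) (x : 𝒪[k']) :
    (sRes220 s hs ^ j) (IsLocalRing.residue 𝒪[k'] x)
      = IsLocalRing.residue 𝒪[k']
          (intMk220 ((s ^ j) (x : k')) (by rw [val_pow_s220 s hs]; exact int_val_le220 x)) := by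
  induction j with
  | zero => simp [intMk220]
  | succ n ih =>
    rw [pow_succ', RingAut.mul_apply, ih, sRes_residue220]
    congr 1
    ext
    simp [pow_succ', RingAut.mul_apply]

/-- The restriction of a valuation preserving ring homomorphism to the rings of integers. -/
def iInt220 (i : k →+* k') (hi : ∀ x : k, Valued.v (i x) = Valued.v x) : 𝒪[k] →+* 𝒪[k'] where
  toFun x := intMk220 (i x) (by rw [hi]; exact int_val_le220 x)
  map_one' := by ext; simp
  map_mul' x y := by ext; simp
  map_zero' := by ext; simp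
  map_add' x y := by ext; simp

@[simp] theorem coe_iInt220 (i : k →+* k') (hi : ∀ x : k, Valued.v (i x) = Valued.v x)
    (x : 𝒪[k]) : ((iInt220 i hi x : 𝒪[k']) : k') = i x := rfl

instance isLocalHom_iInt220 (i : k →+* k') (hi : ∀ x : k, Valued.v (i x) = Valued.v x) :
    IsLocalHom (iInt220 i hi) where
  map_nonunit x hx := by
    by_contra h
    have h1 : Valued.v (x : k) < 1 := Valuation.Integer.not_isUnit_iff_valuation_lt_one.1 h
    have h2 : ¬ IsUnit (iInt220 i hi x) := by
      rw [Valuation.Integer.not_isUnit_iff_valuation_lt_one, coe_iInt220, hi]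
      exact h1
    exact h2 hx

/-- The embedding of residue fields induced by `i`. -/
def iRes220 (i : k →+* k') (hi : ∀ x : k, Valued.v (i x) = Valued.v x) : 𝓀[k] →+* 𝓀[k'] :=
  IsLocalRing.ResidueField.map (iInt220 i hi)

theorem iRes_residue220 (i : k →+* k') (hi : ∀ x : k, Valued.v (i x) = Valued.v x)
    (x : 𝒪[k]) :
    iRes220 i hi (IsLocalRing.residue 𝒪[k] x) = IsLocalRing.residue 𝒪[k'] (iInt220 i hi x) :=
  rfl

end Maps

section Cyclic

variable {k' : Type} [Field k']

/-- The trace `∑_{j<l} s^j y` of the cyclic datum. -/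
def tr220 (s : k' ≃+* k') (l : ℕ) (y : k') : k' := ∑ j ∈ Finset.range l, (s ^ j) y

/-- The norm `∏_{j<l} s^j y` of the cyclic datum. -/
def nm220 (s : k' ≃+* k') (l : ℕ) (y : k') : k' := ∏ j ∈ Finset.range l, (s ^ j) y

theorem s_tr220 (s : k' ≃+* k') (l : ℕ) (y : k') (h : (s ^ l) y = y) :
    s (tr220 s l y) = tr220 s l y := by
  unfold tr220
  rw [map_sum]
  have h1 : ∀ j ∈ Finset.range l, s ((s ^ j) y) = (s ^ (j + 1)) y := by
    intro j _; rw [pow_succ', RingAut.mul_apply]
  rw [Finset.sum_congr rfl h1]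
  have h2 := Finset.sum_range_succ' (fun j => (s ^ j) y) l
  have h3 := Finset.sum_range_succ (fun j => (s ^ j) y) l
  simp only [pow_zero, RingAut.one_apply] at h2
  rw [h] at h3
  have h4 : ∑ j ∈ Finset.range l, (s ^ (j + 1)) y + y = ∑ j ∈ Finset.range l, (s ^ j) y + y := by
    rw [← h2, h3]
  exact add_right_cancel h4

theorem s_nm220 (s : k' ≃+* k') (l : ℕ) (y : k') (h : (s ^ l) y = y) :
    s (nm220 s l y) = nm220 s l y := by
  unfold nm220
  rw [map_prod]
  have h1 : ∀ j ∈ Finset.range l, s ((s ^ j) y) = (s ^ (j + 1)) y := by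
    intro j _; rw [pow_succ', RingAut.mul_apply]
  rw [Finset.prod_congr rfl h1]
  by_cases hy : y = 0
  · subst hy; simp
  have h2 := Finset.prod_range_succ' (fun j => (s ^ j) y) l
  have h3 := Finset.prod_range_succ (fun j => (s ^ j) y) l
  simp only [pow_zero, RingAut.one_apply] at h2
  rw [h] at h3
  have h4 : (∏ j ∈ Finset.range l, (s ^ (j + 1)) y) * y = (∏ j ∈ Finset.range l, (s ^ j) y) * y := by
    rw [← h2, h3]
  exact mul_right_cancel₀ hy h4

theorem nm_mul220 (s : k' ≃+* k') (l : ℕ) (x y : k') :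
    nm220 s l (x * y) = nm220 s l x * nm220 s l y := by
  unfold nm220
  rw [← Finset.prod_mul_distrib]
  exact Finset.prod_congr rfl fun j _ => map_mul _ _ _

theorem nm_one220 (s : k' ≃+* k') (l : ℕ) : nm220 s l 1 = 1 := by
  unfold nm220
  exact Finset.prod_eq_one fun j _ => map_one _

theorem nm_inv220 (s : k' ≃+* k') (l : ℕ) (x : k') : nm220 s l x⁻¹ = (nm220 s l x)⁻¹ := by
  unfold nm220
  rw [← Finset.prod_inv_distrib]
  exact Finset.prod_congr rfl fun j _ => map_inv₀ _ _

theorem tr_add220 (s : k' ≃+* k') (l : ℕ) (x y : k') :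
    tr220 s l (x + y) = tr220 s l x + tr220 s l y := by
  unfold tr220
  rw [← Finset.sum_add_distrib]
  exact Finset.sum_congr rfl fun j _ => map_add _ _ _

end Cyclic

section Unr

variable {k k' : Type} [Field k] [Field k'] [Valued k Γ₀] [Valued k' Γ₀]
  {q l : ℕ} {i : k →+* k'} {s : k' ≃+* k'}

theorem val_i220 (hext : IsLocalExt k k' l 1 i s) (x : k) : Valued.v (i x) = Valued.v x := by
  simpa using hext.val_i x

theorem val_tr_le220 (hext : IsLocalExt k k' l 1 i s) (y : k') (hy : Valued.v y ≤ 1) :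
    Valued.v (tr220 s l y) ≤ 1 := by
  unfold tr220
  refine Valuation.map_sum_le _ fun j _ => ?_
  rw [val_pow_s220 s hext.val_s]; exact hy

theorem val_nm220 (hext : IsLocalExt k k' l 1 i s) (y : k') :
    Valued.v (nm220 s l y) = Valued.v y ^ l := by
  unfold nm220
  rw [map_prod]
  rw [Finset.prod_congr rfl fun j _ => val_pow_s220 s hext.val_s j y]
  simp

theorem exists_of_fixed220 (hext : IsLocalExt k k' l 1 i s) (y : k') (hy : Valued.v y ≤ 1)
    (hfix : s y = y) : ∃ x : 𝒪[k], i (x : k) = y := by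
  obtain ⟨x, hx⟩ := hext.cyc.fixed y hfix
  exact ⟨intMk220 x (by rw [← val_i220 hext, hx]; exact hy), hx⟩

theorem iRes_injective220 (hext : IsLocalExt k k' l 1 i s) :
    Function.Injective (iRes220 i (val_i220 hext)) :=
  (iRes220 i (val_i220 hext)).injective

theorem sRes_pow_fixed220 (hext : IsLocalExt k k' l 1 i s) (yb : 𝓀[k'])
    (h : sRes220 s hext.val_s yb = yb) (j : ℕ) : (sRes220 s hext.val_s ^ j) yb = yb := by
  induction j with
  | zero => simp
  | succ n ih => rw [pow_succ', RingAut.mul_apply, ih, h]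

theorem residue_tr220 (hext : IsLocalExt k k' l 1 i s) (y : 𝒪[k']) :
    IsLocalRing.residue 𝒪[k'] (intMk220 (tr220 s l y) (val_tr_le220 hext y (int_val_le220 y)))
      = ∑ j ∈ Finset.range l, (sRes220 s hext.val_s ^ j) (IsLocalRing.residue 𝒪[k'] y) := by
  have h1 : intMk220 (tr220 s l y) (val_tr_le220 hext y (int_val_le220 y))
      = ∑ j ∈ Finset.range l, intMk220 ((s ^ j) (y : k'))
          (by rw [val_pow_s220 s hext.val_s]; exact int_val_le220 y) := by
    ext
    simp [tr220]
  rw [h1, map_sum]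
  exact Finset.sum_congr rfl fun j _ => (sRes_pow_residue220 s hext.val_s j y).symm

theorem val_nm_le220 (hext : IsLocalExt k k' l 1 i s) (y : k') (hy : Valued.v y ≤ 1) :
    Valued.v (nm220 s l y) ≤ 1 := by
  rw [val_nm220 hext]; exact pow_le_one₀ zero_le hy

theorem residue_nm220 (hext : IsLocalExt k k' l 1 i s) (y : 𝒪[k']) :
    IsLocalRing.residue 𝒪[k'] (intMk220 (nm220 s l y) (val_nm_le220 hext y (int_val_le220 y)))
      = ∏ j ∈ Finset.range l, (sRes220 s hext.val_s ^ j) (IsLocalRing.residue 𝒪[k'] y) := by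
  have h1 : intMk220 (nm220 s l y) (val_nm_le220 hext y (int_val_le220 y))
      = ∏ j ∈ Finset.range l, intMk220 ((s ^ j) (y : k'))
          (by rw [val_pow_s220 s hext.val_s]; exact int_val_le220 y) := by
    ext
    simp [nm220]
  rw [h1, map_prod]
  exact Finset.prod_congr rfl fun j _ => (sRes_pow_residue220 s hext.val_s j y).symm

/-- **The fixed field of the residue automorphism is the residue field of `k`.** -/
theorem resFix_res220 (hk : IsLocalField k q) (hext : IsLocalExt k k' l 1 i s) (hl : l.Prime)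
    (yb : 𝓀[k']) (h : sRes220 s hext.val_s yb = yb) :
    ∃ xb : 𝓀[k], iRes220 i (val_i220 hext) xb = yb := by
  obtain ⟨y, rfl⟩ := IsLocalRing.residue_surjective (R := 𝒪[k']) yb
  by_cases hchar : ((l : ℕ) : 𝓀[k']) = 0
  · -- characteristic `l`: use the norm and the perfectness of the finite residue field
    have : Fact l.Prime := ⟨hl⟩
    have : CharP 𝓀[k'] l := (CharP.charP_iff_prime_eq_zero hl).2 hchar
    have hchar0 : ((l : ℕ) : 𝓀[k]) = 0 := by
      apply iRes_injective220 hext
      rw [map_natCast, hchar, map_zero]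
    have : CharP 𝓀[k] l := (CharP.charP_iff_prime_eq_zero hl).2 hchar0
    have : Finite 𝓀[k] := finite_residue220 hk
    obtain ⟨n₀, hn₀⟩ := exists_of_fixed220 hext (nm220 s l y)
      (val_nm_le220 hext y (int_val_le220 y)) (s_nm220 s l y (hext.cyc.order y))
    obtain ⟨xb, hxb⟩ := surjective_frobenius 𝓀[k] l (IsLocalRing.residue 𝒪[k] n₀)
    refine ⟨xb, ?_⟩
    have h1 : (IsLocalRing.residue 𝒪[k'] y) ^ l
        = iRes220 i (val_i220 hext) (IsLocalRing.residue 𝒪[k] n₀) := by
      have := residue_nm220 hext y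
      rw [Finset.prod_congr rfl fun j _ => sRes_pow_fixed220 hext _ h j] at this
      simp only [Finset.prod_const, Finset.card_range] at this
      rw [← this, iRes_residue220]
      congr 1
      ext
      simp [hn₀]
    have h2 : (IsLocalRing.residue 𝒪[k'] y - iRes220 i (val_i220 hext) xb) ^ l = 0 := by
      rw [sub_pow_char, h1, ← map_pow, ← hxb, frobenius_def, sub_self]
    exact (sub_eq_zero.1 (pow_eq_zero_iff hl.ne_zero |>.1 h2)).symm
  · -- `l` invertible: use the trace
    obtain ⟨t₀, ht₀⟩ := exists_of_fixed220 hext (tr220 s l y)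
      (val_tr_le220 hext y (int_val_le220 y)) (s_tr220 s l y (hext.cyc.order y))
    refine ⟨((l : ℕ) : 𝓀[k])⁻¹ * IsLocalRing.residue 𝒪[k] t₀, ?_⟩
    have h1 : ((l : ℕ) : 𝓀[k']) * IsLocalRing.residue 𝒪[k'] y
        = iRes220 i (val_i220 hext) (IsLocalRing.residue 𝒪[k] t₀) := by
      have := residue_tr220 hext y
      rw [Finset.sum_congr rfl fun j _ => sRes_pow_fixed220 hext _ h j] at this
      simp only [Finset.sum_const, Finset.card_range, nsmul_eq_mul] at this
      rw [← this, iRes_residue220]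
      congr 1
      ext
      simp [ht₀]
    rw [map_mul, map_inv₀, map_natCast, ← h1, inv_mul_cancel_left₀ hchar]

theorem sRes_pow_l220 (hext : IsLocalExt k k' l 1 i s) : sRes220 s hext.val_s ^ l = 1 := by
  ext yb
  obtain ⟨y, rfl⟩ := IsLocalRing.residue_surjective (R := 𝒪[k']) yb
  rw [sRes_pow_residue220, RingAut.one_apply]
  congr 1
  ext
  simp [hext.cyc.order]

theorem sRes_ne_one220 (hk : IsLocalField k q) (hk' : IsLocalField k' (q ^ l))
    (hext : IsLocalExt k k' l 1 i s) (hl : l.Prime) : sRes220 s hext.val_s ≠ 1 := by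
  intro h1
  have hsurj : Function.Surjective (iRes220 i (val_i220 hext)) := by
    intro yb
    exact resFix_res220 hk hext hl yb (by rw [h1]; rfl)
  have hfin : Finite 𝓀[k] := finite_residue220 hk
  have hle : Nat.card 𝓀[k'] ≤ Nat.card 𝓀[k] := Nat.card_le_card_of_surjective _ hsurj
  rw [card_residue220 hk, card_residue220 hk'] at hle
  have h2 : 2 ≤ q := two_le_q220 hk
  have h3 : q ^ 2 ≤ q ^ l := Nat.pow_le_pow_right (by omega) hl.two_le
  nlinarith

theorem orderOf_sRes220 (hk : IsLocalField k q) (hk' : IsLocalField k' (q ^ l))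
    (hext : IsLocalExt k k' l 1 i s) (hl : l.Prime) : orderOf (sRes220 s hext.val_s) = l := by
  have : Fact l.Prime := ⟨hl⟩
  exact orderOf_eq_prime (sRes_pow_l220 hext) (sRes_ne_one220 hk hk' hext hl)

/-- **Dedekind independence** of the powers `sRes^j`, `j < l`. -/
theorem exists_resSum_ne_zero220 (hk : IsLocalField k q) (hk' : IsLocalField k' (q ^ l))
    (hext : IsLocalExt k k' l 1 i s) (hl : l.Prime) (a : Fin l → 𝓀[k']) (j₀ : Fin l)
    (ha : a j₀ ≠ 0) :
    ∃ θ : 𝓀[k'], ∑ j : Fin l, a j * (sRes220 s hext.val_s ^ (j : ℕ)) θ ≠ 0 := by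
  let g : Fin l → (𝓀[k'] →* 𝓀[k']) := fun j =>
    ((sRes220 s hext.val_s ^ (j : ℕ) : 𝓀[k'] ≃+* 𝓀[k']) : 𝓀[k'] →+* 𝓀[k']).toMonoidHom
  have hg : Function.Injective g := by
    intro a b hab
    have h1 : sRes220 s hext.val_s ^ (a : ℕ) = sRes220 s hext.val_s ^ (b : ℕ) := by
      ext x
      exact DFunLike.congr_fun hab x
    have h2 := pow_injOn_Iio_orderOf (x := sRes220 s hext.val_s)
    rw [orderOf_sRes220 hk hk' hext hl] at h2
    exact Fin.ext (h2 (Set.mem_Iio.2 a.2) (Set.mem_Iio.2 b.2) h1)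
  have hli := (linearIndependent_monoidHom 𝓀[k'] 𝓀[k']).comp g hg
  by_contra hcon
  simp only [not_exists, not_not] at hcon
  have hzero : ∑ j : Fin l, a j • ((fun f : 𝓀[k'] →* 𝓀[k'] => (f : 𝓀[k'] → 𝓀[k'])) ∘ g) j = 0 := by
    funext θ
    simp only [Finset.sum_apply, Pi.smul_apply, smul_eq_mul, Pi.zero_apply, Function.comp_apply]
    exact hcon θ
  exact ha (Fintype.linearIndependent_iff.1 hli a hzero j₀)

end Unr

end Fermat.Agent.LT.T6.H220

end
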