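import Mathlib
import Fermat.Agent.LT.T6.Spec
import Fermat.Agent.LT.T6.H220.UnrRes

/-!
# Row LT, tower T6: UNRAMIFIED CORE, part 2 (integral statements) -- helper220, OFF-MAIN

In the vocabulary of `T6/Spec.lean` (`IsLocalField`, `IsLocalExt k k' l 1 i s`, `l` prime):

* `resFix220`          : `y` integral, `s y ≡ y mod 𝔪'`  ⟹  `y ≡ i x mod 𝔪'`, `x` integral;
* `exists_res_move220` : some integral `y` has `s y - y` a unit;
* `exists_tr_unit220`, `exists_tr_eq_one220`, `tr_surj220` : the trace `𝒪' → 𝒪` is onto;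
* `add_h90_220`        : integral additive Hilbert 90;
* `poincare220`        : the Poincaré series identity `u · s e = e + (N u - 1) θ`;
* `mul_h90_220`        : integral multiplicative Hilbert 90.
-/

set_option autoImplicit false

open scoped Valued
open Fermat.Agent.LT.T6

noncomputable section

namespace Fermat.Agent.LT.T6.H220

section Algebra

variable {R : Type} [CommRing R]

/-- The partial norms `a_m = u · s u ⋯ s^{m-1} u`. -/
def pnm220 (s : R ≃+* R) (m : ℕ) (u : R) : R := ∏ j ∈ Finset.range m, (s ^ j) u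

theorem pnm_zero220 (s : R ≃+* R) (u : R) : pnm220 s 0 u = 1 := by simp [pnm220]

theorem pnm_succ220 (s : R ≃+* R) (m : ℕ) (u : R) :
    pnm220 s (m + 1) u = u * s (pnm220 s m u) := by
  unfold pnm220
  rw [Finset.prod_range_succ', map_prod]
  simp only [pow_zero, RingAut.one_apply]
  rw [mul_comm]
  congr 1
  exact Finset.prod_congr rfl fun j _ => by rw [pow_succ', RingAut.mul_apply]

/-- The Poincaré series `e = ∑_{m<l} a_m s^m θ`. -/
def pser220 (s : R ≃+* R) (l : ℕ) (u θ : R) : R :=
  ∑ m ∈ Finset.range l, pnm220 s m u * (s ^ m) θ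

/-- **Poincaré series identity**: `u · s(e) = e + (N u - 1) θ` if `s^l θ = θ`. -/
theorem poincare220 (s : R ≃+* R) (l : ℕ) (u θ : R) (hθ : (s ^ l) θ = θ) :
    u * s (pser220 s l u θ) = pser220 s l u θ + (pnm220 s l u - 1) * θ := by
  unfold pser220
  rw [map_sum, Finset.mul_sum]
  have h1 : ∀ m ∈ Finset.range l, u * s (pnm220 s m u * (s ^ m) θ)
      = pnm220 s (m + 1) u * (s ^ (m + 1)) θ := by
    intro m _
    rw [map_mul, pnm_succ220, pow_succ', RingAut.mul_apply]
    ring
  rw [Finset.sum_congr rfl h1]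
  have h2 := Finset.sum_range_succ' (fun m => pnm220 s m u * (s ^ m) θ) l
  have h3 := Finset.sum_range_succ (fun m => pnm220 s m u * (s ^ m) θ) l
  simp only [pow_zero, RingAut.one_apply, pnm_zero220, one_mul] at h2
  rw [hθ] at h3
  have h4 : ∑ m ∈ Finset.range l, pnm220 s (m + 1) u * (s ^ (m + 1)) θ
      = ∑ m ∈ Finset.range l, pnm220 s m u * (s ^ m) θ + pnm220 s l u * θ - θ := by
    rw [← h3, h2]; ring
  rw [h4]; ring

/-- The additive partial sums `y_m = ∑_{j<m} s^j y`. -/
def psum220 (s : R ≃+* R) (m : ℕ) (y : R) : R := ∑ j ∈ Finset.range m, (s ^ j) y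

theorem psum_succ220 (s : R ≃+* R) (m : ℕ) (y : R) :
    psum220 s (m + 1) y = y + s (psum220 s m y) := by
  unfold psum220
  rw [Finset.sum_range_succ', map_sum]
  simp only [pow_zero, RingAut.one_apply]
  rw [add_comm]
  congr 1
  exact Finset.sum_congr rfl fun j _ => by rw [pow_succ', RingAut.mul_apply]

/-- The additive series `z = ∑_{m<l} y_m s^m θ`. -/
def aser220 (s : R ≃+* R) (l : ℕ) (y θ : R) : R :=
  ∑ m ∈ Finset.range l, psum220 s m y * (s ^ m) θ

/-- **Additive series identity**: `s z = z + (tr y) θ - y · tr θ` if `s^l θ = θ`. -/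
theorem aser_identity220 (s : R ≃+* R) (l : ℕ) (y θ : R) (hθ : (s ^ l) θ = θ) :
    s (aser220 s l y θ) = aser220 s l y θ + psum220 s l y * θ - y * psum220 s l θ := by
  unfold aser220
  rw [map_sum]
  have h1 : ∀ m ∈ Finset.range l, s (psum220 s m y * (s ^ m) θ)
      = psum220 s (m + 1) y * (s ^ (m + 1)) θ - y * (s ^ (m + 1)) θ := by
    intro m _
    rw [map_mul, psum_succ220, pow_succ', RingAut.mul_apply]
    ring
  rw [Finset.sum_congr rfl h1, Finset.sum_sub_distrib, ← Finset.mul_sum]
  have h2 := Finset.sum_range_succ' (fun m => psum220 s m y * (s ^ m) θ) l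
  have h3 := Finset.sum_range_succ (fun m => psum220 s m y * (s ^ m) θ) l
  have h5 := Finset.sum_range_succ' (fun m => (s ^ m) θ) l
  have h6 := Finset.sum_range_succ (fun m => (s ^ m) θ) l
  have h0 : psum220 s 0 y = 0 := by simp [psum220]
  simp only [pow_zero, RingAut.one_apply, h0, zero_mul, add_zero] at h2
  simp only [pow_zero, RingAut.one_apply] at h5
  rw [hθ] at h3 h6
  have h7 : ∑ m ∈ Finset.range l, (s ^ (m + 1)) θ = psum220 s l θ := by
    unfold psum220
    have : ∑ m ∈ Finset.range l, (s ^ (m + 1)) θ + θ = ∑ m ∈ Finset.range l, (s ^ m) θ + θ := by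
      rw [← h5, h6]
    exact add_right_cancel this
  rw [h7, ← h2, h3]

end Algebra

section Fixed

variable {k' : Type} [Field k']

theorem s_pow_fixed220 (s : k' ≃+* k') (c : k') (hc : s c = c) (j : ℕ) : (s ^ j) c = c := by
  induction j with
  | zero => simp
  | succ n ih => rw [pow_succ', RingAut.mul_apply, ih, hc]

theorem tr_mul_fixed220 (s : k' ≃+* k') (l : ℕ) (y c : k') (hc : s c = c) :
    tr220 s l (y * c) = tr220 s l y * c := by
  unfold tr220
  rw [Finset.sum_mul]
  exact Finset.sum_congr rfl fun j _ => by rw [map_mul, s_pow_fixed220 s c hc]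

theorem nm_fixed220 (s : k' ≃+* k') (l : ℕ) (c : k') (hc : s c = c) :
    nm220 s l c = c ^ l := by
  unfold nm220
  rw [Finset.prod_congr rfl fun j _ => s_pow_fixed220 s c hc j]
  simp

end Fixed

section Int

variable {k k' : Type} [Field k] [Field k'] [Valued k Γ₀] [Valued k' Γ₀]
  {q l : ℕ} {i : k →+* k'} {s : k' ≃+* k'}

theorem sRes_eq_iff220 (hext : IsLocalExt k k' l 1 i s) (y : 𝒪[k']) :
    sRes220 s hext.val_s (IsLocalRing.residue 𝒪[k'] y) = IsLocalRing.residue 𝒪[k'] y ↔
      Valued.v (s (y : k') - y) < 1 := by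
  rw [sRes_residue220, residue_eq_iff220]
  rfl

/-- **Residue fixed points.**  An integral `y` with `s y ≡ y` modulo the maximal ideal is
congruent to an integral element of `k`. -/
theorem resFix220 (hk : IsLocalField k q) (hext : IsLocalExt k k' l 1 i s) (hl : l.Prime)
    (y : k') (hy : Valued.v y ≤ 1) (hs : Valued.v (s y - y) < 1) :
    ∃ x : k, Valued.v x ≤ 1 ∧ Valued.v (y - i x) < 1 := by
  obtain ⟨xb, hxb⟩ := resFix_res220 hk hext hl (IsLocalRing.residue 𝒪[k'] (intMk220 y hy))
    ((sRes_eq_iff220 hext _).2 hs)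
  obtain ⟨x, rfl⟩ := IsLocalRing.residue_surjective (R := 𝒪[k]) xb
  refine ⟨x, int_val_le220 x, ?_⟩
  rw [iRes_residue220, residue_eq_iff220] at hxb
  rw [Valuation.map_sub_swap]
  exact hxb

/-- `s` acts non-trivially on the residue field. -/
theorem exists_res_move220 (hk : IsLocalField k q) (hk' : IsLocalField k' (q ^ l))
    (hext : IsLocalExt k k' l 1 i s) (hl : l.Prime) :
    ∃ y : k', Valued.v y ≤ 1 ∧ Valued.v (s y - y) = 1 := by
  have hne := sRes_ne_one220 hk hk' hext hl
  have : ∃ yb : 𝓀[k'], sRes220 s hext.val_s yb ≠ yb := by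
    by_contra hcon
    simp only [not_exists, not_not] at hcon
    exact hne (RingEquiv.ext hcon)
  obtain ⟨yb, hyb⟩ := this
  obtain ⟨y, rfl⟩ := IsLocalRing.residue_surjective (R := 𝒪[k']) yb
  refine ⟨y, int_val_le220 y, ?_⟩
  rw [Ne, sRes_eq_iff220 hext, not_lt] at hyb
  refine le_antisymm ?_ hyb
  refine (Valued.v.map_sub (s (y : k')) (y : k')).trans (max_le ?_ (int_val_le220 y))
  rw [hext.val_s]; exact int_val_le220 y

/-- There is an integral element whose trace is a unit. -/
theorem exists_tr_unit220 (hk : IsLocalField k q) (hk' : IsLocalField k' (q ^ l))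
    (hext : IsLocalExt k k' l 1 i s) (hl : l.Prime) :
    ∃ θ : k', Valued.v θ ≤ 1 ∧ Valued.v (tr220 s l θ) = 1 := by
  have : NeZero l := ⟨hl.ne_zero⟩
  obtain ⟨θb, hθb⟩ := exists_resSum_ne_zero220 hk hk' hext hl (fun _ => 1) 0 one_ne_zero
  obtain ⟨θ, rfl⟩ := IsLocalRing.residue_surjective (R := 𝒪[k']) θb
  refine ⟨θ, int_val_le220 θ, ?_⟩
  simp only [one_mul] at hθb
  rw [Fin.sum_univ_eq_sum_range
    (fun j => (sRes220 s hext.val_s ^ j) (IsLocalRing.residue 𝒪[k'] θ)) l,
    ← residue_tr220 hext θ, residue_ne_zero_iff220] at hθb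
  exact hθb

/-- There is an integral element of trace one. -/
theorem exists_tr_eq_one220 (hk : IsLocalField k q) (hk' : IsLocalField k' (q ^ l))
    (hext : IsLocalExt k k' l 1 i s) (hl : l.Prime) :
    ∃ θ : k', Valued.v θ ≤ 1 ∧ tr220 s l θ = 1 := by
  obtain ⟨θ, hθ, htr⟩ := exists_tr_unit220 hk hk' hext hl
  have hfix : s (tr220 s l θ) = tr220 s l θ := s_tr220 s l θ (hext.cyc.order θ)
  have hne : tr220 s l θ ≠ 0 := by
    intro h0; rw [h0, map_zero] at htr; exact zero_ne_one htr
  refine ⟨θ * (tr220 s l θ)⁻¹, ?_, ?_⟩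
  · rw [map_mul, map_inv₀, htr, inv_one, mul_one]; exact hθ
  · rw [tr_mul_fixed220 s l θ _ (by rw [map_inv₀, hfix]), mul_inv_cancel₀ hne]

/-- **The trace is onto**, with control of the valuation. -/
theorem tr_surj220 (hk : IsLocalField k q) (hk' : IsLocalField k' (q ^ l))
    (hext : IsLocalExt k k' l 1 i s) (hl : l.Prime) (x : k) :
    ∃ y : k', Valued.v y ≤ Valued.v x ∧ tr220 s l y = i x := by
  obtain ⟨θ, hθ, htr⟩ := exists_tr_eq_one220 hk hk' hext hl
  refine ⟨θ * i x, ?_, ?_⟩
  · rw [map_mul, val_i220 hext]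
    calc Valued.v θ * Valued.v x ≤ 1 * Valued.v x := mul_le_mul_left hθ _
      _ = Valued.v x := one_mul _
  · rw [tr_mul_fixed220 s l θ _ (hext.cyc.fix_i x), htr, one_mul]

theorem val_psum_le220 (hext : IsLocalExt k k' l 1 i s) (m : ℕ) (y : k') :
    Valued.v (psum220 s m y) ≤ Valued.v y := by
  unfold psum220
  refine Valuation.map_sum_le _ fun j _ => ?_
  rw [val_pow_s220 s hext.val_s]

/-- **Integral additive Hilbert 90.** -/
theorem add_h90_220 (hk : IsLocalField k q) (hk' : IsLocalField k' (q ^ l))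
    (hext : IsLocalExt k k' l 1 i s) (hl : l.Prime) (y : k') (hy : tr220 s l y = 0) :
    ∃ z : k', Valued.v z ≤ Valued.v y ∧ s z - z = y := by
  obtain ⟨θ, hθ, htr⟩ := exists_tr_eq_one220 hk hk' hext hl
  refine ⟨- aser220 s l y θ, ?_, ?_⟩
  · rw [Valuation.map_neg]
    unfold aser220
    refine Valuation.map_sum_le _ fun m _ => ?_
    rw [map_mul, val_pow_s220 s hext.val_s]
    calc Valued.v (psum220 s m y) * Valued.v θ ≤ Valued.v y * 1 :=
          mul_le_mul' (val_psum_le220 hext m y) hθ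
      _ = Valued.v y := mul_one _
  · have h := aser_identity220 s l y θ (hext.cyc.order θ)
    have h1 : psum220 s l y = 0 := hy
    have h2 : psum220 s l θ = 1 := htr
    rw [h1, h2] at h
    rw [map_neg, h]; ring

theorem val_pnm220 (hext : IsLocalExt k k' l 1 i s) (m : ℕ) (u : k') :
    Valued.v (pnm220 s m u) = Valued.v u ^ m := by
  unfold pnm220
  rw [map_prod]
  rw [Finset.prod_congr rfl fun j _ => val_pow_s220 s hext.val_s j u]
  simp

theorem val_pser_le220 (hext : IsLocalExt k k' l 1 i s) (u θ : k') (hu : Valued.v u = 1)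
    (hθ : Valued.v θ ≤ 1) : Valued.v (pser220 s l u θ) ≤ 1 := by
  unfold pser220
  refine Valuation.map_sum_le _ fun m _ => ?_
  rw [map_mul, val_pnm220 hext, hu, one_pow, one_mul, val_pow_s220 s hext.val_s]
  exact hθ

theorem residue_pser220 (hext : IsLocalExt k k' l 1 i s) (u : k') (hu : Valued.v u = 1)
    (θ : 𝒪[k']) :
    IsLocalRing.residue 𝒪[k']
        (intMk220 (pser220 s l u θ) (val_pser_le220 hext u θ hu (int_val_le220 θ)))
      = ∑ m ∈ Finset.range l,
          IsLocalRing.residue 𝒪[k']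
              (intMk220 (pnm220 s m u) (by rw [val_pnm220 hext, hu, one_pow])) *
            (sRes220 s hext.val_s ^ m) (IsLocalRing.residue 𝒪[k'] θ) := by
  have h1 : intMk220 (pser220 s l u θ) (val_pser_le220 hext u θ hu (int_val_le220 θ))
      = ∑ m ∈ Finset.range l,
          intMk220 (pnm220 s m u) (by rw [val_pnm220 hext, hu, one_pow]) *
            intMk220 ((s ^ m) (θ : k'))
              (by rw [val_pow_s220 s hext.val_s]; exact int_val_le220 θ) := by
    ext
    simp [pser220]
  rw [h1, map_sum]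
  refine Finset.sum_congr rfl fun m _ => ?_
  rw [map_mul, sRes_pow_residue220 s hext.val_s m θ]

/-- **Integral multiplicative Hilbert 90.**  A unit of norm one is `z / s z` with `z` a unit. -/
theorem mul_h90_220 (hk : IsLocalField k q) (hk' : IsLocalField k' (q ^ l))
    (hext : IsLocalExt k k' l 1 i s) (hl : l.Prime) (u : k') (hu : Valued.v u = 1)
    (hN : nm220 s l u = 1) :
    ∃ z : k', Valued.v z = 1 ∧ u * s z = z := by
  have : NeZero l := ⟨hl.ne_zero⟩
  obtain ⟨θb, hθb⟩ := exists_resSum_ne_zero220 hk hk' hext hl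
    (fun m => IsLocalRing.residue 𝒪[k']
      (intMk220 (pnm220 s (m : ℕ) u) (by rw [val_pnm220 hext, hu, one_pow]))) 0
    (by
      rw [residue_ne_zero_iff220]
      simp [pnm_zero220])
  obtain ⟨θ, rfl⟩ := IsLocalRing.residue_surjective (R := 𝒪[k']) θb
  refine ⟨pser220 s l u θ, ?_, ?_⟩
  · rw [Fin.sum_univ_eq_sum_range
      (fun m => IsLocalRing.residue 𝒪[k']
          (intMk220 (pnm220 s m u) (by rw [val_pnm220 hext, hu, one_pow])) *
        (sRes220 s hext.val_s ^ m) (IsLocalRing.residue 𝒪[k'] θ)) l,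
      ← residue_pser220 hext u hu θ, residue_ne_zero_iff220] at hθb
    exact hθb
  · have h := poincare220 s l u (θ : k') (hext.cyc.order _)
    have h1 : pnm220 s l u = 1 := hN
    rw [h1, sub_self, zero_mul, add_zero] at h
    exact h

end Int

end Fermat.Agent.LT.T6.H220

end
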