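import Mathlib
import Fermat.Agent.LT.T6.Spec

/-!
# Row LT, tower T6: UNRAMIFIED CORE, part 3 (completeness tools) -- helper220, OFF-MAIN

Mathlib + `T6/Spec.lean` only.  `K` is a field with `Valued K Γ₀`, `Γ₀ = ℤᵐ⁰`.

* `le_exp_pred_of_lt220`  : discreteness of `ℤᵐ⁰`;
* `eq_zero_of_forall_le220` : `v a ≤ exp (-(n+1))` for all `n`  ⟹  `a = 0`;
* `exists_lim220`         : a sequence with `v (W (n+1) - W n) ≤ exp (-(n+1))` converges, with
                            the same estimate for the limit (complete `K` with a uniformiser);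
* `approx220`             : successive approximation (dependent choice + limit).
-/

set_option autoImplicit false

open scoped Valued
open Fermat.Agent.LT.T6 WithZero

noncomputable section

namespace Fermat.Agent.LT.T6.H220

theorem le_exp_pred_of_lt220 (x : Γ₀) (n : ℤ) (h : x < exp n) : x ≤ exp (n - 1) := by
  rcases eq_or_ne x 0 with rfl | hx
  · exact zero_le
  · rw [← exp_log hx] at h ⊢
    rw [exp_lt_exp] at h
    rw [exp_le_exp]
    omega

theorem le_exp_neg_one_of_lt_one220 (x : Γ₀) (h : x < 1) : x ≤ exp (-1 : ℤ) := by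
  have := le_exp_pred_of_lt220 x 0 (by simpa using h)
  simpa using this

theorem exp_neg_succ_lt_one220 (n : ℕ) : (exp (-((n : ℤ) + 1)) : Γ₀) < 1 := by
  rw [← exp_zero, exp_lt_exp]; omega

theorem exp_neg_succ_le220 (n m : ℕ) (h : n ≤ m) :
    (exp (-((m : ℤ) + 1)) : Γ₀) ≤ exp (-((n : ℤ) + 1)) := by
  rw [exp_le_exp]; omega

section Lim

variable {K : Type} [Field K] [Valued K Γ₀]

theorem eq_zero_of_forall_le220 (a : K) (h : ∀ n : ℕ, Valued.v a ≤ exp (-((n : ℤ) + 1))) :
    a = 0 := by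
  by_contra ha
  have hv : Valued.v a ≠ 0 := (Valuation.ne_zero_iff _).2 ha
  have h1 := h (- log (Valued.v a)).toNat
  rw [← exp_log hv, exp_le_exp, log_exp] at h1
  omega

theorem val_sub_le_of_steps220 (W : ℕ → K)
    (h : ∀ n, Valued.v (W (n + 1) - W n) ≤ exp (-((n : ℤ) + 1))) (n m : ℕ) (hnm : n ≤ m) :
    Valued.v (W m - W n) ≤ exp (-((n : ℤ) + 1)) := by
  induction m, hnm using Nat.le_induction with
  | base => simp
  | succ m hm ih =>
    have : W (m + 1) - W n = (W (m + 1) - W m) + (W m - W n) := by ring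
    rw [this]
    exact (Valued.v.map_add _ _).trans (max_le ((h m).trans (exp_neg_succ_le220 n m hm)) ih)

theorem cauchySeq_of_steps220 (W : ℕ → K)
    (h : ∀ n, Valued.v (W (n + 1) - W n) ≤ exp (-((n : ℤ) + 1))) : CauchySeq W := by
  rw [(Valued.hasBasis_uniformity K Γ₀).cauchySeq_iff]
  intro γ _
  set g : Γ₀ := MonoidWithZeroHom.ValueGroup₀.embedding
    (γ : (MonoidWithZeroHom.ofClass (Valued.v : Valuation K Γ₀)).ValueGroup₀) with hg
  have hγ : g ≠ 0 := by
    intro h0
    have : (γ : (MonoidWithZeroHom.ofClass (Valued.v : Valuation K Γ₀)).ValueGroup₀) = 0 := by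
      apply MonoidWithZeroHom.ValueGroup₀.embedding_injective
      rw [← hg, h0, map_zero]
    exact γ.ne_zero this
  refine ⟨(- log g).toNat, fun m hm n hn => ?_⟩
  change Valued.v.restrict (W n - W m) < _
  rw [Valuation.restrict_lt_iff_lt_embedding, ← hg]
  have key : ∀ a b : ℕ, (- log g).toNat ≤ a → a ≤ b → Valued.v (W b - W a) < g := by
    intro a b ha hab
    refine (val_sub_le_of_steps220 W h a b hab).trans_lt ?_
    rw [← exp_log hγ, exp_lt_exp]
    omega
  rcases le_total m n with hmn | hnm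
  · exact key m n hm hmn
  · rw [Valuation.map_sub_swap]
    exact key n m hn hnm

/-- **Limits.**  In a complete valued field with a uniformiser, a sequence with
`v (W (n+1) - W n) ≤ exp (-(n+1))` has a limit `L` with `v (L - W n) ≤ exp (-(n+1))`. -/
theorem exists_lim220 [CompleteSpace K] (hunif : ∃ ϖ : K, Valued.v ϖ = exp (-1 : ℤ))
    (W : ℕ → K) (h : ∀ n, Valued.v (W (n + 1) - W n) ≤ exp (-((n : ℤ) + 1))) :
    ∃ L : K, ∀ n, Valued.v (L - W n) ≤ exp (-((n : ℤ) + 1)) := by
  obtain ⟨L, hL⟩ := cauchySeq_tendsto_of_complete (cauchySeq_of_steps220 W h)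
  obtain ⟨ϖ, hϖ⟩ := hunif
  refine ⟨L, fun n => ?_⟩
  have hne : Valued.v.restrict (ϖ ^ (n + 1)) ≠ 0 := by
    rw [Ne, Valuation.restrict_eq_zero_iff, map_pow, hϖ]
    exact pow_ne_zero _ exp_ne_zero
  have hmem : {y : K | Valued.v.restrict (y - L) < (Units.mk0 _ hne : _ˣ).1} ∈ nhds L :=
    Valued.mem_nhds.2 ⟨Units.mk0 _ hne, subset_rfl⟩
  obtain ⟨m, hm, hmn⟩ := ((hL.eventually hmem).and (Filter.eventually_ge_atTop n)).exists
  simp only [Units.val_mk0] at hm
  replace hm : Valued.v.restrict (W m - L) < Valued.v.restrict (ϖ ^ (n + 1)) := hm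
  rw [Valuation.restrict_lt_iff] at hm
  have h1 : Valued.v (W m - L) ≤ exp (-((n : ℤ) + 1)) := by
    refine hm.le.trans ?_
    rw [map_pow, hϖ, ← exp_nsmul]
    rw [exp_le_exp]
    simp
  have : L - W n = (W m - W n) - (W m - L) := by ring
  rw [this]
  exact (Valued.v.map_sub _ _).trans (max_le (val_sub_le_of_steps220 W h n m hmn) h1)

/-- **Successive approximation.**  If every `n`-th approximation `w` (`P n w`) can be improved
to an `(n+1)`-st approximation `w'` with `v (w' - w) ≤ exp (-(n+1))`, then there is a limit `L`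
which is within `exp (-(n+1))` of an `n`-th approximation for every `n`. -/
theorem approx220 [CompleteSpace K] (hunif : ∃ ϖ : K, Valued.v ϖ = exp (-1 : ℤ))
    (P : ℕ → K → Prop)
    (step : ∀ n w, P n w → ∃ w', P (n + 1) w' ∧ Valued.v (w' - w) ≤ exp (-((n : ℤ) + 1)))
    (w₀ : K) (h₀ : P 0 w₀) :
    ∃ L : K, Valued.v (L - w₀) ≤ exp (-1 : ℤ) ∧
      ∀ n, ∃ w, P n w ∧ Valued.v (L - w) ≤ exp (-((n : ℤ) + 1)) := by
  let seq : (n : ℕ) → {w : K // P n w} := fun n =>
    Nat.rec (motive := fun n => {w : K // P n w}) ⟨w₀, h₀⟩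
      (fun n a => ⟨Classical.choose (step n a.1 a.2), (Classical.choose_spec (step n a.1 a.2)).1⟩)
      n
  have hstep : ∀ n, Valued.v ((seq (n + 1)).1 - (seq n).1) ≤ exp (-((n : ℤ) + 1)) := fun n =>
    (Classical.choose_spec (step n (seq n).1 (seq n).2)).2
  obtain ⟨L, hL⟩ := exists_lim220 hunif (fun n => (seq n).1) hstep
  refine ⟨L, ?_, fun n => ⟨(seq n).1, (seq n).2, hL n⟩⟩
  have h1 := hL 0
  have h2 : (seq 0).1 = w₀ := rfl
  rw [h2] at h1
  simpa using h1

end Lim

end Fermat.Agent.LT.T6.H220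

end
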