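import Mathlib
import Fermat.Agent.LT.T6.Spec
import Fermat.Agent.LT.T6.H220.UnrRes
import Fermat.Agent.LT.T6.H220.UnrInt

/-!
# Row LT, tower T6: UNRAMIFIED CORE, part 4 (norm on the residue field) -- helper220, OFF-MAIN

`resNorm_surj220`: in the setting of `T6/Spec.lean` (`IsLocalExt k k' l 1 i s`, `l` prime) every
non-zero element of the residue field of `k` is the norm `∏_{j<l} sRes^j u` of an element of the
residue field of `k'`.  Proof: Hilbert 90 on the residue field (Poincaré series + Dedekind) and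
counting in the finite group of units.
-/

set_option autoImplicit false

open scoped Valued
open Fermat.Agent.LT.T6

noncomputable section

namespace Fermat.Agent.LT.T6.H220

section Gen

variable {F : Type} [Field F]

/-- The norm map on units attached to an automorphism `σ` and a length `l`. -/
def uNm220 (σ : F ≃+* F) (l : ℕ) : Fˣ →* Fˣ :=
  MonoidHom.mk' (fun u => ∏ j ∈ Finset.range l, Units.map ((σ ^ j : F ≃+* F) : F →* F) u)
    (fun a b => by simp [Finset.prod_mul_distrib])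

/-- The map `z ↦ z / σ z` on units. -/
def uPhi220 (σ : F ≃+* F) : Fˣ →* Fˣ :=
  MonoidHom.mk' (fun z => z * (Units.map (σ : F →* F) z)⁻¹)
    (fun a b => by simp [mul_mul_mul_comm, mul_comm])

theorem coe_uNm220 (σ : F ≃+* F) (l : ℕ) (u : Fˣ) :
    ((uNm220 σ l u : Fˣ) : F) = pnm220 σ l (u : F) := by
  simp [uNm220, pnm220]

theorem coe_uPhi220 (σ : F ≃+* F) (z : Fˣ) :
    ((uPhi220 σ z : Fˣ) : F) = (z : F) * (σ (z : F))⁻¹ := by
  simp [uPhi220]

theorem pnm_sigma220 (σ : F ≃+* F) (l : ℕ) (hσ : σ ^ l = 1) (u : F) :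
    pnm220 σ l (σ u) = pnm220 σ l u := by
  have h := s_nm220 σ l u (by rw [hσ]; rfl)
  unfold nm220 at h
  unfold pnm220
  rw [← h, map_prod]
  refine Finset.prod_congr rfl fun j _ => ?_
  rw [← RingAut.mul_apply, ← RingAut.mul_apply, ← pow_succ, ← pow_succ']

theorem sigma_pnm220 (σ : F ≃+* F) (l : ℕ) (hσ : σ ^ l = 1) (u : F) :
    σ (pnm220 σ l u) = pnm220 σ l u :=
  s_nm220 σ l u (by rw [hσ]; rfl)

theorem range_uPhi_le_ker220 (σ : F ≃+* F) (l : ℕ) (hσ : σ ^ l = 1) :
    (uPhi220 σ).range ≤ (uNm220 σ l).ker := by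
  rintro _ ⟨z, rfl⟩
  rw [MonoidHom.mem_ker]
  ext
  rw [coe_uNm220, coe_uPhi220, Units.val_one]
  have h1 : pnm220 σ l ((z : F) * (σ (z : F))⁻¹)
      = pnm220 σ l (z : F) * (pnm220 σ l (σ (z : F)))⁻¹ := by
    unfold pnm220
    rw [← Finset.prod_inv_distrib, ← Finset.prod_mul_distrib]
    exact Finset.prod_congr rfl fun j _ => by rw [map_mul, map_inv₀]
  rw [h1, pnm_sigma220 σ l hσ]
  have hne : pnm220 σ l (z : F) ≠ 0 := by
    unfold pnm220
    exact Finset.prod_ne_zero_iff.2 fun j _ => (map_ne_zero _).2 z.ne_zero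
  exact mul_inv_cancel₀ hne

theorem range_uNm_le_ker220 (σ : F ≃+* F) (l : ℕ) (hσ : σ ^ l = 1) :
    (uNm220 σ l).range ≤ (uPhi220 σ).ker := by
  rintro _ ⟨u, rfl⟩
  rw [MonoidHom.mem_ker]
  ext
  rw [coe_uPhi220, coe_uNm220, Units.val_one, sigma_pnm220 σ l hσ]
  have hne : pnm220 σ l (u : F) ≠ 0 := by
    unfold pnm220
    exact Finset.prod_ne_zero_iff.2 fun j _ => (map_ne_zero _).2 u.ne_zero
  exact mul_inv_cancel₀ hne

/-- Counting: if `ker N = range φ` in a finite group of units then every `σ`-fixed unit is a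
norm. -/
theorem range_uNm_eq_ker220 [Finite F] (σ : F ≃+* F) (l : ℕ) (hσ : σ ^ l = 1)
    (h90 : (uNm220 σ l).ker ≤ (uPhi220 σ).range) :
    (uNm220 σ l).range = (uPhi220 σ).ker := by
  have hker : (uNm220 σ l).ker = (uPhi220 σ).range :=
    le_antisymm h90 (range_uPhi_le_ker220 σ l hσ)
  have e1 := Subgroup.card_mul_index (uNm220 σ l).ker
  have e2 := Subgroup.card_mul_index (uPhi220 σ).ker
  have e3 : (uNm220 σ l).ker.index = Nat.card (uNm220 σ l).range := Subgroup.index_ker _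
  have e4 : (uPhi220 σ).ker.index = Nat.card (uPhi220 σ).range := Subgroup.index_ker _
  have e5 : Nat.card (uNm220 σ l).ker = Nat.card (uPhi220 σ).range := by rw [hker]
  have hpos : 0 < Nat.card (uNm220 σ l).ker := Nat.card_pos
  have e6 : Nat.card (uNm220 σ l).range = Nat.card (uPhi220 σ).ker := by
    rw [e3] at e1
    rw [e4, ← e5] at e2
    have : Nat.card (uNm220 σ l).ker * Nat.card (uNm220 σ l).range
        = Nat.card (uNm220 σ l).ker * Nat.card (uPhi220 σ).ker := by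
      rw [e1, mul_comm, e2]
    exact Nat.eq_of_mul_eq_mul_left hpos this
  exact Subgroup.eq_of_le_of_card_ge (range_uNm_le_ker220 σ l hσ) e6.ge

end Gen

section Unr

variable {k k' : Type} [Field k] [Field k'] [Valued k Γ₀] [Valued k' Γ₀]
  {q l : ℕ} {i : k →+* k'} {s : k' ≃+* k'}

/-- **Hilbert 90 on the residue field.** -/
theorem res_h90_220 (hk : IsLocalField k q) (hk' : IsLocalField k' (q ^ l))
    (hext : IsLocalExt k k' l 1 i s) (hl : l.Prime) :
    (uNm220 (sRes220 s hext.val_s) l).ker ≤ (uPhi220 (sRes220 s hext.val_s)).range := by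
  intro u hu
  rw [MonoidHom.mem_ker] at hu
  have hu' : pnm220 (sRes220 s hext.val_s) l (u : 𝓀[k']) = 1 := by
    rw [← coe_uNm220, hu, Units.val_one]
  have : NeZero l := ⟨hl.ne_zero⟩
  obtain ⟨θ, hθ⟩ := exists_resSum_ne_zero220 hk hk' hext hl
    (fun m => pnm220 (sRes220 s hext.val_s) (m : ℕ) (u : 𝓀[k'])) 0
    (by simp [pnm_zero220])
  rw [Fin.sum_univ_eq_sum_range
    (fun m => pnm220 (sRes220 s hext.val_s) m (u : 𝓀[k']) * (sRes220 s hext.val_s ^ m) θ) l]
    at hθ
  have hP := poincare220 (sRes220 s hext.val_s) l (u : 𝓀[k']) θ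
    (by rw [sRes_pow_l220 hext]; rfl)
  rw [hu', sub_self, zero_mul, add_zero] at hP
  change (u : 𝓀[k']) * sRes220 s hext.val_s (pser220 (sRes220 s hext.val_s) l u θ)
    = pser220 (sRes220 s hext.val_s) l u θ at hP
  have he : pser220 (sRes220 s hext.val_s) l (u : 𝓀[k']) θ ≠ 0 := hθ
  refine ⟨Units.mk0 _ he, ?_⟩
  ext
  rw [coe_uPhi220, Units.val_mk0]
  have hse : sRes220 s hext.val_s (pser220 (sRes220 s hext.val_s) l (u : 𝓀[k']) θ) ≠ 0 :=
    (map_ne_zero _).2 he
  rw [mul_inv_eq_iff_eq_mul₀ hse]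
  exact hP.symm

theorem sRes_iRes220 (hext : IsLocalExt k k' l 1 i s) (xb : 𝓀[k]) :
    sRes220 s hext.val_s (iRes220 i (val_i220 hext) xb) = iRes220 i (val_i220 hext) xb := by
  obtain ⟨x, rfl⟩ := IsLocalRing.residue_surjective (R := 𝒪[k]) xb
  rw [iRes_residue220, sRes_residue220]
  congr 1
  ext
  simp [hext.cyc.fix_i]

/-- **The norm of the residue fields is onto** (on non-zero elements). -/
theorem resNorm_surj220 (hk : IsLocalField k q) (hk' : IsLocalField k' (q ^ l))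
    (hext : IsLocalExt k k' l 1 i s) (hl : l.Prime) (xb : 𝓀[k]) (hxb : xb ≠ 0) :
    ∃ ub : 𝓀[k'], ub ≠ 0 ∧
      pnm220 (sRes220 s hext.val_s) l ub = iRes220 i (val_i220 hext) xb := by
  have : Finite 𝓀[k'] := finite_residue220 hk'
  have hrange := range_uNm_eq_ker220 (sRes220 s hext.val_s) l (sRes_pow_l220 hext)
    (res_h90_220 hk hk' hext hl)
  have hne : iRes220 i (val_i220 hext) xb ≠ 0 := (map_ne_zero _).2 hxb
  have hmem : Units.mk0 _ hne ∈ (uPhi220 (sRes220 s hext.val_s)).ker := by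
    rw [MonoidHom.mem_ker]
    ext
    rw [coe_uPhi220, Units.val_mk0, Units.val_one, sRes_iRes220 hext]
    exact mul_inv_cancel₀ hne
  rw [← hrange] at hmem
  obtain ⟨u, hu⟩ := hmem
  refine ⟨(u : 𝓀[k']), u.ne_zero, ?_⟩
  rw [← coe_uNm220, hu, Units.val_mk0]

end Unr

end Fermat.Agent.LT.T6.H220

end
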