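import Mathlib
import Fermat.Agent.LT.T6.Spec
import Fermat.Agent.LT.T6.H220.UnrRes
import Fermat.Agent.LT.T6.H220.UnrInt
import Fermat.Agent.LT.T6.H220.UnrLim
import Fermat.Agent.LT.T6.H220.UnrNormRes

/-!
# Row LT, tower T6: UNRAMIFIED CORE, part 5 (the norm is onto the units) -- helper220, OFF-MAIN

In the setting of `T6/Spec.lean` (`IsLocalField k q`, `IsLocalField k' (q ^ l)`,
`IsLocalExt k k' l 1 i s`, `l` prime):

* `val_nm_one_add220`   : `v (N (1 + θ) - 1 - tr θ) ≤ v θ ^ 2` for `v θ ≤ 1`;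
* `norm_units_surj220`  : every unit of `k` is the norm of a unit of `k'`;
* `isNorm_iff220`       : `x ∈ kˣ` is a norm from `k'` iff `l ∣ ord x`.
-/

set_option autoImplicit false

open scoped Valued
open Fermat.Agent.LT.T6 WithZero

noncomputable section

namespace Fermat.Agent.LT.T6.H220

section Pre

variable {k' : Type} [Field k']

theorem pnm_one_add_succ220 (s : k' ≃+* k') (m : ℕ) (θ : k') :
    pnm220 s (m + 1) (1 + θ) = pnm220 s m (1 + θ) * (1 + (s ^ m) θ) := by
  unfold pnm220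
  rw [Finset.prod_range_succ, map_add, map_one]

theorem psum_succ_right220 (s : k' ≃+* k') (m : ℕ) (θ : k') :
    psum220 s (m + 1) θ = psum220 s m θ + (s ^ m) θ := by
  unfold psum220
  rw [Finset.sum_range_succ]

end Pre

section Unr

variable {k k' : Type} [Field k] [Field k'] [Valued k Γ₀] [Valued k' Γ₀]
  {q l : ℕ} {i : k →+* k'} {s : k' ≃+* k'}

/-- **Expansion of the norm**: `N_m (1 + θ) = 1 + tr_m θ + O(θ²)`. -/
theorem val_pnm_one_add220 (hext : IsLocalExt k k' l 1 i s) (θ : k') (hθ : Valued.v θ ≤ 1)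
    (m : ℕ) :
    Valued.v (pnm220 s m (1 + θ) - 1 - psum220 s m θ) ≤ Valued.v θ ^ 2 := by
  induction m with
  | zero => simp [pnm220, psum220]
  | succ m ih =>
    have h1 : Valued.v (pnm220 s m (1 + θ) - 1) ≤ Valued.v θ := by
      have : pnm220 s m (1 + θ) - 1
          = (pnm220 s m (1 + θ) - 1 - psum220 s m θ) + psum220 s m θ := by ring
      rw [this]
      refine (Valued.v.map_add _ _).trans (max_le (ih.trans ?_) (val_psum_le220 hext m θ))
      calc Valued.v θ ^ 2 = Valued.v θ * Valued.v θ := sq _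
        _ ≤ Valued.v θ * 1 := mul_le_mul_right hθ _
        _ = Valued.v θ := mul_one _
    have h2 : pnm220 s (m + 1) (1 + θ) - 1 - psum220 s (m + 1) θ
        = (pnm220 s m (1 + θ) - 1 - psum220 s m θ) + (s ^ m) θ * (pnm220 s m (1 + θ) - 1) := by
      rw [pnm_one_add_succ220, psum_succ_right220]; ring
    rw [h2]
    refine (Valued.v.map_add _ _).trans (max_le ih ?_)
    rw [map_mul, val_pow_s220 s hext.val_s, sq]
    exact mul_le_mul_right h1 _

theorem val_nm_one_add220 (hext : IsLocalExt k k' l 1 i s) (θ : k') (hθ : Valued.v θ ≤ 1) :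
    Valued.v (nm220 s l (1 + θ) - 1 - tr220 s l θ) ≤ Valued.v θ ^ 2 :=
  val_pnm_one_add220 hext θ hθ l

theorem val_nm_one_add_sub_one220 (hext : IsLocalExt k k' l 1 i s) (θ : k')
    (hθ : Valued.v θ ≤ 1) : Valued.v (nm220 s l (1 + θ) - 1) ≤ Valued.v θ := by
  have : nm220 s l (1 + θ) - 1
      = (nm220 s l (1 + θ) - 1 - tr220 s l θ) + tr220 s l θ := by ring
  rw [this]
  refine (Valued.v.map_add _ _).trans
    (max_le ((val_nm_one_add220 hext θ hθ).trans ?_) (val_psum_le220 hext l θ))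
  calc Valued.v θ ^ 2 = Valued.v θ * Valued.v θ := sq _
    _ ≤ Valued.v θ * 1 := mul_le_mul_right hθ _
    _ = Valued.v θ := mul_one _

/-- The norm is `1`-Lipschitz on the units. -/
theorem val_nm_sub_nm220 (hext : IsLocalExt k k' l 1 i s) (L w : k') (hw : Valued.v w = 1)
    (hLw : Valued.v (L - w) ≤ 1) :
    Valued.v (nm220 s l L - nm220 s l w) ≤ Valued.v (L - w) := by
  have hw0 : w ≠ 0 := by
    intro h0; rw [h0, map_zero] at hw; exact zero_ne_one hw
  have h1 : L = w * (1 + (L - w) * w⁻¹) := by field_simp; ring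
  have hv : Valued.v ((L - w) * w⁻¹) = Valued.v (L - w) := by
    rw [map_mul, map_inv₀, hw, inv_one, mul_one]
  have h2 : nm220 s l L - nm220 s l w
      = nm220 s l w * (nm220 s l (1 + (L - w) * w⁻¹) - 1) := by
    conv_lhs => rw [h1, nm_mul220]
    ring
  rw [h2, map_mul, val_nm220 hext, hw, one_pow, one_mul, ← hv]
  exact val_nm_one_add_sub_one220 hext _ (by rw [hv]; exact hLw)

/-- First approximation: the residue norm is onto. -/
theorem exists_norm_approx220 (hk : IsLocalField k q) (hk' : IsLocalField k' (q ^ l))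
    (hext : IsLocalExt k k' l 1 i s) (hl : l.Prime) (x : k) (hx : Valued.v x = 1) :
    ∃ u : k', Valued.v u = 1 ∧ Valued.v (nm220 s l u - i x) ≤ exp (-1 : ℤ) := by
  have hxb : IsLocalRing.residue 𝒪[k] (intMk220 x hx.le) ≠ 0 :=
    (residue_ne_zero_iff220 _).2 hx
  obtain ⟨ub, hub, hN⟩ := resNorm_surj220 hk hk' hext hl _ hxb
  obtain ⟨u, rfl⟩ := IsLocalRing.residue_surjective (R := 𝒪[k']) ub
  refine ⟨u, (residue_ne_zero_iff220 u).1 hub, ?_⟩
  apply le_exp_neg_one_of_lt_one220
  have h1 := residue_nm220 hext u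
  have h2 : pnm220 (sRes220 s hext.val_s) l (IsLocalRing.residue 𝒪[k'] u)
      = ∏ j ∈ Finset.range l, (sRes220 s hext.val_s ^ j) (IsLocalRing.residue 𝒪[k'] u) := rfl
  rw [h2, ← h1, iRes_residue220, residue_eq_iff220] at hN
  exact hN

/-- **The norm is onto the units.** -/
theorem norm_units_surj220 (hk : IsLocalField k q) (hk' : IsLocalField k' (q ^ l))
    (hext : IsLocalExt k k' l 1 i s) (hl : l.Prime) (x : k) (hx : Valued.v x = 1) :
    ∃ u : k', Valued.v u = 1 ∧ nm220 s l u = i x := by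
  have hcomp : CompleteSpace k' := hk'.complete
  obtain ⟨u₀, hu₀, hN₀⟩ := exists_norm_approx220 hk hk' hext hl x hx
  have hix : Valued.v (i x) = 1 := by rw [val_i220 hext, hx]
  have hix0 : i x ≠ 0 := by
    intro h0; rw [h0, map_zero] at hix; exact zero_ne_one hix
  obtain ⟨L, hL0, hL⟩ := approx220 hk'.unif
    (fun n w => Valued.v w = 1 ∧ Valued.v (nm220 s l w - i x) ≤ exp (-((n : ℤ) + 1)))
    (by
      rintro n w ⟨hw, hNw⟩
      have hnw : Valued.v (nm220 s l w) = 1 := by rw [val_nm220 hext, hw, one_pow]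
      have hnw0 : nm220 s l w ≠ 0 := by
        intro h0; rw [h0, map_zero] at hnw; exact zero_ne_one hnw
      have hfix : s (i x * (nm220 s l w)⁻¹) = i x * (nm220 s l w)⁻¹ := by
        rw [map_mul, map_inv₀, hext.cyc.fix_i, s_nm220 s l w (hext.cyc.order w)]
      obtain ⟨x', hx'⟩ := hext.cyc.fixed _ hfix
      have hb : i (x' - 1) = (i x - nm220 s l w) * (nm220 s l w)⁻¹ := by
        rw [map_sub, map_one, hx']; field_simp
      have hvb : Valued.v (x' - 1) ≤ exp (-((n : ℤ) + 1)) := by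
        rw [← val_i220 hext, hb, map_mul, map_inv₀, hnw, inv_one, mul_one,
          Valuation.map_sub_swap]
        exact hNw
      obtain ⟨θ, hθ, htr⟩ := tr_surj220 hk hk' hext hl (x' - 1)
      have hθ' : Valued.v θ ≤ exp (-((n : ℤ) + 1)) := hθ.trans hvb
      have hθ1 : Valued.v θ < 1 := hθ'.trans_lt (exp_neg_succ_lt_one220 n)
      refine ⟨w * (1 + θ), ⟨?_, ?_⟩, ?_⟩
      · rw [map_mul, hw, one_mul]
        exact Valuation.map_one_add_of_lt _ hθ1
      · have h3 : nm220 s l (w * (1 + θ)) - i x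
            = nm220 s l w * (nm220 s l (1 + θ) - 1 - tr220 s l θ) := by
          rw [nm_mul220, htr, hb]; field_simp; ring
        rw [h3, map_mul, hnw, one_mul]
        refine (val_nm_one_add220 hext θ hθ1.le).trans ?_
        calc Valued.v θ ^ 2 ≤ (exp (-((n : ℤ) + 1)) : Γ₀) ^ 2 := pow_le_pow_left₀ zero_le hθ' 2
          _ = exp (2 • (-((n : ℤ) + 1))) := (exp_nsmul _ _).symm
          _ ≤ exp (-(((n + 1 : ℕ) : ℤ) + 1)) := by
            rw [exp_le_exp, two_nsmul]; push_cast; omega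
      · have : w * (1 + θ) - w = w * θ := by ring
        rw [this, map_mul, hw, one_mul]
        exact hθ')
    u₀ ⟨hu₀, by simpa using hN₀⟩
  have hL1 : Valued.v L = 1 := by
    have h1 : Valued.v (L - u₀) < Valued.v u₀ := by
      rw [hu₀]; exact hL0.trans_lt (by rw [← exp_zero, exp_lt_exp]; omega)
    rw [← hu₀]
    exact Valuation.map_eq_of_sub_lt _ h1
  refine ⟨L, hL1, ?_⟩
  rw [← sub_eq_zero]
  apply eq_zero_of_forall_le220
  intro n
  obtain ⟨w, ⟨hw, hNw⟩, hLw⟩ := hL n
  have : nm220 s l L - i x = (nm220 s l L - nm220 s l w) + (nm220 s l w - i x) := by ring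
  rw [this]
  refine (Valued.v.map_add _ _).trans (max_le ?_ hNw)
  exact (val_nm_sub_nm220 hext L w hw
    (hLw.trans (exp_neg_succ_lt_one220 n).le)).trans hLw

/-- **Norms of the unramified extension**: `x ≠ 0` in `k` is a norm from `k'` iff `l` divides
its (additive) valuation. -/
theorem isNorm_iff220 (hk : IsLocalField k q) (hk' : IsLocalField k' (q ^ l))
    (hext : IsLocalExt k k' l 1 i s) (hl : l.Prime) (x : k) (hx : x ≠ 0) :
    (∃ y : k', nm220 s l y = i x) ↔ (l : ℤ) ∣ log (Valued.v x) := by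
  have hvx : Valued.v x ≠ 0 := (Valuation.ne_zero_iff _).2 hx
  constructor
  · rintro ⟨y, hy⟩
    have h1 : Valued.v x = Valued.v y ^ l := by
      rw [← val_i220 hext, ← hy, val_nm220 hext]
    rw [h1, log_pow]
    exact ⟨log (Valued.v y), by simp⟩
  · rintro ⟨m, hm⟩
    obtain ⟨ϖ, hϖ⟩ := hk.unif
    have hϖ0 : ϖ ≠ 0 := by
      intro h0; rw [h0, map_zero] at hϖ; exact exp_ne_zero hϖ.symm
    set c : k := ϖ ^ (-m) with hc
    have hc0 : c ≠ 0 := zpow_ne_zero _ hϖ0
    have hvc : Valued.v c = exp m := by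
      rw [hc, map_zpow₀, hϖ, ← exp_zsmul]; simp
    have hvcl : Valued.v (c ^ l) = Valued.v x := by
      rw [map_pow, hvc, ← exp_nsmul, ← exp_log hvx, hm]; simp
    have hu : Valued.v (x * (c ^ l)⁻¹) = 1 := by
      rw [map_mul, map_inv₀, hvcl, mul_inv_cancel₀ hvx]
    obtain ⟨u, _, hNu⟩ := norm_units_surj220 hk hk' hext hl _ hu
    refine ⟨i c * u, ?_⟩
    rw [nm_mul220, nm_fixed220 s l (i c) (hext.cyc.fix_i c), hNu, ← map_pow, ← map_mul]
    congr 1
    field_simp

end Unr

end Fermat.Agent.LT.T6.H220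

end
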